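import Fermat.Agent.S55.H414.CycloPow

/-!
# S55, leaf CYC-INF (helper414), part 4: the case `q = p`

`Φ_{p^(n+1)}(X + 1)` is Eisenstein over `ℤ_p`, hence irreducible over `ℚ_p`; therefore the local
Galois group `Gal(ℚ̄_p/ℚ_p)` acts transitively on the primitive `p^(n+1)`-th roots of unity and its
image under the cyclotomic character modulo `p^(n+1)` is everything.
-/

set_option autoImplicit false

namespace Fermat.Agent.S55.H414

open ExtCitation Polynomial

section Eisenstein

variable (p : ℕ) [Fact p.Prime]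

theorem cyclotomic_comp_padicInt_eq_map (n : ℕ) :
    (cyclotomic (p ^ (n + 1)) ℤ_[p]).comp (X + 1)
      = ((cyclotomic (p ^ (n + 1)) ℤ).comp (X + 1)).map (Int.castRingHom ℤ_[p]) := by
  rw [Polynomial.map_comp, map_cyclotomic, Polynomial.map_add, Polynomial.map_X,
    Polynomial.map_one]

theorem monic_cyclotomic_comp (R : Type*) [CommRing R] [Nontrivial R] (N : ℕ) :
    ((cyclotomic N R).comp (X + 1)).Monic := by
  have := (cyclotomic.monic N R).comp_X_add_C (1 : R)
  simpa using this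

theorem natDegree_cyclotomic_comp (R : Type*) [CommRing R] [IsDomain R] (N : ℕ) :
    ((cyclotomic N R).comp (X + 1)).natDegree = N.totient := by
  have := natDegree_comp (p := cyclotomic N R) (q := X + C (1 : R))
  rw [natDegree_X_add_C, mul_one, natDegree_cyclotomic] at this
  simpa using this

/-- `Φ_{p^(n+1)}(X + 1)` is an Eisenstein polynomial over `ℤ_p`. -/
theorem isEisensteinAt_cyclotomic_comp_padicInt (n : ℕ) :
    ((cyclotomic (p ^ (n + 1)) ℤ_[p]).comp (X + 1)).IsEisensteinAt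
      (IsLocalRing.maximalIdeal ℤ_[p]) := by
  have hp : p.Prime := Fact.out
  have hZ := cyclotomic_prime_pow_comp_X_add_one_isEisensteinAt p n
  have hmonZ : ((cyclotomic (p ^ (n + 1)) ℤ).comp (X + 1)).Monic := monic_cyclotomic_comp ℤ _
  refine Monic.isEisensteinAt_of_mem_of_notMem (monic_cyclotomic_comp ℤ_[p] _)
    (Ideal.IsPrime.ne_top inferInstance) (fun {i} hi => ?_) ?_
  · rw [natDegree_cyclotomic_comp] at hi
    have hi' : i < ((cyclotomic (p ^ (n + 1)) ℤ).comp (X + 1)).natDegree := by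
      rw [natDegree_cyclotomic_comp]; exact hi
    have hmem := hZ.mem hi'
    rw [Submodule.mem_span_singleton] at hmem
    obtain ⟨c, hc⟩ := hmem
    rw [cyclotomic_comp_padicInt_eq_map, coeff_map, ← hc, PadicInt.maximalIdeal_eq_span_p,
      Ideal.mem_span_singleton]
    refine ⟨(c : ℤ_[p]), ?_⟩
    simp [mul_comm]
  · have h0 : ((cyclotomic (p ^ (n + 1)) ℤ_[p]).comp (X + 1)).coeff 0 = (p : ℤ_[p]) := by
      rw [coeff_zero_eq_eval_zero, eval_comp]
      simp only [eval_add, eval_X, eval_one, zero_add]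
      exact eval_one_cyclotomic_prime_pow n
    rw [h0, PadicInt.maximalIdeal_eq_span_p, Ideal.span_singleton_pow,
      ← PadicInt.norm_le_pow_iff_mem_span_pow, PadicInt.norm_p, not_le]
    have hp1 : (1 : ℝ) < p := by exact_mod_cast hp.one_lt
    have hp0 : (0 : ℝ) < p := by positivity
    rw [show (-(2 : ℕ) : ℤ) = -2 by rfl, zpow_neg, zpow_ofNat]
    rw [inv_lt_inv₀ (by positivity) hp0]
    nlinarith

/-- `Φ_{p^(n+1)}(X + 1)` is irreducible over `ℚ_p`. -/
theorem irreducible_cyclotomic_comp_padic (n : ℕ) :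
    Irreducible ((cyclotomic (p ^ (n + 1)) ℚ_[p]).comp (X + 1)) := by
  have hp : p.Prime := Fact.out
  have hmon := monic_cyclotomic_comp ℤ_[p] (p ^ (n + 1))
  have hirr : Irreducible ((cyclotomic (p ^ (n + 1)) ℤ_[p]).comp (X + 1)) := by
    refine (isEisensteinAt_cyclotomic_comp_padicInt p n).irreducible inferInstance
      hmon.isPrimitive ?_
    rw [natDegree_cyclotomic_comp]
    exact Nat.totient_pos.2 (pow_pos hp.pos _)
  have h2 := (Monic.irreducible_iff_irreducible_map_fraction_map (K := ℚ_[p]) hmon).1 hirr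
  rwa [Polynomial.map_comp, map_cyclotomic, Polynomial.map_add, Polynomial.map_X,
    Polynomial.map_one] at h2

end Eisenstein

section Local

variable (p : ℕ) [Fact p.Prime]

/-- The local Galois group at `p` acts transitively on primitive `p^(n+1)`-th roots of unity. -/
theorem exists_local_algEquiv_pow (n : ℕ) {ζ : PadicAlgCl p}
    (hζ : IsPrimitiveRoot ζ (p ^ (n + 1))) (u : ℕ) (hu : u.Coprime (p ^ (n + 1))) :
    ∃ τ : PadicAlgCl p ≃ₐ[ℚ_[p]] PadicAlgCl p, τ ζ = ζ ^ u := by
  have hp : p.Prime := Fact.out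
  have hpos : 0 < p ^ (n + 1) := pow_pos hp.pos _
  haveI : NeZero (p ^ (n + 1)) := ⟨hpos.ne'⟩
  haveI : Normal ℚ_[p] (PadicAlgCl p) := IsAlgClosure.normal ℚ_[p] (PadicAlgCl p)
  set g : ℚ_[p][X] := (cyclotomic (p ^ (n + 1)) ℚ_[p]).comp (X + 1) with hg
  have hirr : Irreducible g := irreducible_cyclotomic_comp_padic p n
  have hmon : g.Monic := monic_cyclotomic_comp ℚ_[p] _
  have hroot : ∀ ξ : PadicAlgCl p, IsPrimitiveRoot ξ (p ^ (n + 1)) → aeval (ξ - 1) g = 0 := by
    intro ξ hξ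
    rw [hg, aeval_comp]
    simp only [map_add, aeval_X, map_one, sub_add_cancel]
    rw [aeval_def, eval₂_eq_eval_map, map_cyclotomic]
    exact hξ.isRoot_cyclotomic hpos
  have h1 : g = minpoly ℚ_[p] (ζ - 1) := minpoly.eq_of_irreducible_of_monic hirr (hroot ζ hζ) hmon
  have h2 : g = minpoly ℚ_[p] (ζ ^ u - 1) :=
    minpoly.eq_of_irreducible_of_monic hirr (hroot _ (hζ.pow_of_coprime u hu)) hmon
  have hconj : IsConjRoot ℚ_[p] (ζ ^ u - 1) (ζ - 1) := by
    rw [IsConjRoot, ← h1, ← h2]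
  obtain ⟨τ, hτ⟩ := hconj.exists_algEquiv
  refine ⟨τ, ?_⟩
  rw [map_sub, map_one] at hτ
  exact sub_left_injective hτ

/-- The cyclotomic character modulo `p^(n+1)` is surjective on the local Galois group at `p`. -/
theorem exists_local_cycloPow_eq (n : ℕ) (w : (ZMod (p ^ (n + 1)))ˣ) :
    ∃ τ : PadicAlgCl p ≃ₐ[ℚ_[p]] PadicAlgCl p,
      cycloPow (p ^ (n + 1)) (localGaloisToGlobal p τ) = w := by
  have hp : p.Prime := Fact.out
  have hinj : Function.Injective (padicEmbedding p) := (padicEmbedding p).toRingHom.injective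
  have hζ : IsPrimitiveRoot (padicEmbedding p (zetaBar (p ^ (n + 1)))) (p ^ (n + 1)) :=
    (zetaBar_spec (p ^ (n + 1))).map_of_injective hinj
  obtain ⟨τ, hτ⟩ := exists_local_algEquiv_pow p n hζ (w : ZMod (p ^ (n + 1))).val
    (ZMod.val_coe_unit_coprime w)
  refine ⟨τ, ?_⟩
  rw [cycloPow_eq_iff]
  apply hinj
  rw [padicEmbedding_localGaloisToGlobal, hτ, map_pow]

/-- The image of the decomposition group at `p` under the cyclotomic character modulo `p^(n+1)`
is everything. -/
theorem map_cycloPow_eq_top (n : ℕ)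
    (D : Subgroup (AlgebraicClosure ℚ ≃ₐ[ℚ] AlgebraicClosure ℚ))
    (hD : (localGaloisToGlobal p).range ≤ D) :
    D.map (cycloPow (p ^ (n + 1))) = ⊤ := by
  rw [eq_top_iff]
  rintro w -
  obtain ⟨τ, hτ⟩ := exists_local_cycloPow_eq p n w
  exact ⟨localGaloisToGlobal p τ, hD ⟨τ, rfl⟩, hτ⟩

/-- **CYC-INF, case `q = p`.** The local degree at `p` of `ℚ(ζ_{p^(n+1)})/ℚ` is
`φ(p^(n+1)) = (p - 1) p^n`. -/
theorem relIndex_fixingSubgroup_cycloLevel_self (n : ℕ)
    (D : Subgroup (AlgebraicClosure ℚ ≃ₐ[ℚ] AlgebraicClosure ℚ))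
    (hD : (localGaloisToGlobal p).range ≤ D) :
    (cycloLevel (p ^ (n + 1))).fixingSubgroup.relIndex D = (p - 1) * p ^ n := by
  have hp : p.Prime := Fact.out
  rw [relIndex_fixingSubgroup_cycloLevel, map_cycloPow_eq_top p n D hD, Subgroup.card_top,
    Nat.card_eq_fintype_card, ZMod.card_units_eq_totient,
    Nat.totient_prime_pow hp (Nat.succ_pos n), Nat.succ_sub_one, mul_comm]

end Local

end Fermat.Agent.S55.H414
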