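import Fermat.Agent.S55.H414.CycloLocal
import Fermat.Agent.S55.BLocal.Prime

/-!
# S55, leaf CYC-INF (helper414): `p^∞` divides the local degrees of `ℚ_S/ℚ` (for `p ∈ S`)

Main results (all in Prelude terms; `D_q = (primeLocalToGlobal q).range` is the image of the local
Galois group `Gal(ℚ̄_q/ℚ_q)` in `G_ℚ`, i.e. the decomposition group of `primeLocalPlace q`):

* `exists_forall_pow_dvd_relIndex` : for every valuation subring `A` of `ℚ̄` over a prime `q`
  containing the image of the local Galois group (or, if `q ≠ p`, arbitrary), and every `k`,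
  `p ^ k ∣ [D_A : D_A ∩ G_F]` for `F = ℚ(ζ_{p^n})`, `n ≫ 0`;
* `exists_level_forall_pow_dvd_relIndex` : for a finite set `S ∋ p` of primes and every `k` there is
  a finite abelian extension `F/ℚ` in `ℚ̄`, unramified outside `S`, such that for all primes `q`
  in a given finite set `T`, the local degree `[D_q : D_q ∩ G_F]` is divisible by `p ^ k`;
* `exists_level_ge_forall_pow_dvd_relIndex` : the same above any given level `F₀`.
-/

set_option autoImplicit false

namespace Fermat.Agent.S55.H414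

open ExtCitation

/-- Local degrees grow along towers: if `F ≤ F'` then `[D : D ∩ G_F]` divides `[D : D ∩ G_F']`. -/
theorem relIndex_fixingSubgroup_dvd_of_le {F F' : IntermediateField ℚ (AlgebraicClosure ℚ)}
    (h : F ≤ F') (D : Subgroup (AlgebraicClosure ℚ ≃ₐ[ℚ] AlgebraicClosure ℚ)) :
    F.fixingSubgroup.relIndex D ∣ F'.fixingSubgroup.relIndex D :=
  Subgroup.relIndex_dvd_of_le_left D (IntermediateField.fixingSubgroup_antitone h)

/-- Commutators of `G_ℚ` fix the cyclotomic levels: `ℚ(ζ_N)/ℚ` is abelian. -/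
theorem commutator_mem_fixingSubgroup_cycloLevel (N : ℕ) [NeZero N]
    (σ τ : AlgebraicClosure ℚ ≃ₐ[ℚ] AlgebraicClosure ℚ) :
    σ * τ * σ⁻¹ * τ⁻¹ ∈ (cycloLevel N).fixingSubgroup := by
  rw [← ker_cycloPow, MonoidHom.mem_ker]
  simp only [map_mul, map_inv]
  rw [mul_comm (cycloPow N σ) (cycloPow N τ), mul_inv_cancel_right, mul_inv_cancel]

theorem cycloLevel_mono (p : ℕ) [Fact p.Prime] {m n : ℕ} (h : m ≤ n) :
    cycloLevel (p ^ m) ≤ cycloLevel (p ^ n) := by
  rw [cycloLevel, IntermediateField.adjoin_le_iff]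
  rintro x rfl
  -- `ζ_{p^m}` is a power of `ζ_{p^n}`
  have hdvd : p ^ m ∣ p ^ n := pow_dvd_pow p h
  obtain ⟨d, hd⟩ := hdvd
  have hprim : IsPrimitiveRoot (zetaBar (p ^ n) ^ d) (p ^ m) := by
    apply (zetaBar_spec (p ^ n)).pow (NeZero.pos _)
    rw [hd, mul_comm]
  obtain ⟨i, -, hi⟩ := hprim.eq_pow_of_pow_eq_one (zetaBar_spec (p ^ m)).pow_eq_one
  rw [SetLike.mem_coe, ← hi]
  exact pow_mem (pow_mem (zetaBar_mem_cycloLevel (p ^ n)) d) i

/-- **CYC-INF at one place.** Let `A` be a valuation subring of `ℚ̄` over the prime `q` and `D` a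
subgroup of `G_ℚ` containing the decomposition group of `A`; if `q = p` assume moreover that `D`
contains the image of the local Galois group `Gal(ℚ̄_p/ℚ_p)`. Then for every `k` and all `n ≫ 0`,
`p ^ k` divides the local degree `[D : D ∩ G_F]`, `F = ℚ(ζ_{p^n})`. -/
theorem exists_forall_pow_dvd_relIndex (p : ℕ) [Fact p.Prime] (q : ℕ) (hq : q.Prime)
    (A : ValuationSubring (AlgebraicClosure ℚ)) (hA : A.LiesOverPrime q)
    (hloc : q = p → (localGaloisToGlobal p).range ≤ A.decompositionSubgroup ℚ) (k : ℕ) :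
    ∃ n₀ : ℕ, ∀ n, n₀ ≤ n →
      p ^ k ∣ (cycloLevel (p ^ n)).fixingSubgroup.relIndex (A.decompositionSubgroup ℚ) := by
  by_cases hqp : q = p
  · refine ⟨k + 1, fun n hn => ?_⟩
    obtain ⟨m, rfl⟩ : ∃ m, n = m + 1 := ⟨n - 1, by omega⟩
    rw [relIndex_fixingSubgroup_cycloLevel_self p m _ (hloc hqp)]
    exact (pow_dvd_pow p (by omega)).trans (Dvd.intro_left _ rfl)
  · exact exists_forall_pow_dvd_relIndex_of_ne p q hq hqp A hA k

/-- **CYC-INF for the Prelude's local groups.** For all primes `p`, `q`, every `k` and all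
`n ≫ 0`, `p ^ k` divides the local degree at `q` of `ℚ(ζ_{p^n})/ℚ`. -/
theorem exists_forall_pow_dvd_relIndex_primeLocal (p : ℕ) [Fact p.Prime] (q : Nat.Primes)
    (k : ℕ) :
    ∃ n₀ : ℕ, ∀ n, n₀ ≤ n →
      p ^ k ∣ (cycloLevel (p ^ n)).fixingSubgroup.relIndex (primeLocalToGlobal q).range := by
  rw [Fermat.Agent.S55.BLocal.range_primeLocalToGlobal]
  refine exists_forall_pow_dvd_relIndex p (q : ℕ) q.2 (primeLocalPlace q)
    (Fermat.Agent.S55.BLocal.primeLocalPlace_liesOver q) ?_ k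
  intro hqp
  have hq' : q = pPrime p := Subtype.ext hqp
  subst hq'
  rw [← Fermat.Agent.S55.BLocal.range_primeLocalToGlobal]
  exact le_of_eq rfl

/-- **CYC-INF, uniform in finitely many places.** -/
theorem exists_forall_forall_pow_dvd_relIndex_primeLocal (p : ℕ) [Fact p.Prime]
    (T : Finset Nat.Primes) (k : ℕ) :
    ∃ n₀ : ℕ, ∀ n, n₀ ≤ n → ∀ q ∈ T,
      p ^ k ∣ (cycloLevel (p ^ n)).fixingSubgroup.relIndex (primeLocalToGlobal q).range := by
  classical
  induction T using Finset.induction_on with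
  | empty => exact ⟨0, fun _ _ q hq => absurd hq (Finset.notMem_empty q)⟩
  | insert a T _ ih =>
    obtain ⟨n₁, h₁⟩ := ih
    obtain ⟨n₂, h₂⟩ := exists_forall_pow_dvd_relIndex_primeLocal p a k
    refine ⟨max n₁ n₂, fun n hn q hq => ?_⟩
    rcases Finset.mem_insert.1 hq with rfl | hq
    · exact h₂ n (le_trans (le_max_right _ _) hn)
    · exact h₁ n (le_trans (le_max_left _ _) hn) q hq

/-- **CYC-INF, packaged.** For a finite set `S` of primes containing `p`, a finite set `T` of
primes and every `k`, there is a finite abelian Galois extension `F/ℚ` inside `ℚ̄`, unramified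
outside `S`, all of whose local degrees at the primes of `T` are divisible by `p ^ k`. -/
theorem exists_level_forall_pow_dvd_relIndex (p : ℕ) [Fact p.Prime] (S : Finset Nat.Primes)
    (hpS : pPrime p ∈ S) (T : Finset Nat.Primes) (k : ℕ) :
    ∃ F : IntermediateField ℚ (AlgebraicClosure ℚ),
      F.IsUnramifiedOutside S ∧ IsGalois ℚ F ∧
      (∀ σ τ : AlgebraicClosure ℚ ≃ₐ[ℚ] AlgebraicClosure ℚ,
        σ * τ * σ⁻¹ * τ⁻¹ ∈ F.fixingSubgroup) ∧
      ∀ q ∈ T, p ^ k ∣ F.fixingSubgroup.relIndex (primeLocalToGlobal q).range := by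
  obtain ⟨n₀, hn₀⟩ := exists_forall_forall_pow_dvd_relIndex_primeLocal p T k
  exact ⟨cycloLevel (p ^ n₀), isUnramifiedOutside_cycloLevel p n₀ S hpS, inferInstance,
    commutator_mem_fixingSubgroup_cycloLevel (p ^ n₀), hn₀ n₀ le_rfl⟩

/-- **CYC-INF above a given level.** For a finite set `S ∋ p`, an `S`-unramified level `F₀`, a
finite set `T` of primes and every `k`, there is an `S`-unramified level `F ≥ F₀` all of whose
local degrees at the primes of `T` are divisible by `p ^ k`. -/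
theorem exists_level_ge_forall_pow_dvd_relIndex (p : ℕ) [Fact p.Prime] (S : Finset Nat.Primes)
    (hpS : pPrime p ∈ S) (F₀ : IntermediateField ℚ (AlgebraicClosure ℚ))
    (hF₀ : F₀.IsUnramifiedOutside S) (T : Finset Nat.Primes) (k : ℕ) :
    ∃ F : IntermediateField ℚ (AlgebraicClosure ℚ),
      F₀ ≤ F ∧ F.IsUnramifiedOutside S ∧
      ∀ q ∈ T, p ^ k ∣ F.fixingSubgroup.relIndex (primeLocalToGlobal q).range := by
  obtain ⟨F₁, hF₁, -, -, hdiv⟩ := exists_level_forall_pow_dvd_relIndex p S hpS T k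
  refine ⟨F₀ ⊔ F₁, le_sup_left, hF₀.sup hF₁, fun q hq => ?_⟩
  exact (hdiv q hq).trans (relIndex_fixingSubgroup_dvd_of_le le_sup_right _)

end Fermat.Agent.S55.H414
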